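/-
S58lib / Stab / Basic  (helper7)  --  brick (G) of S58: STABILISATION

Raising the level of a normalized eigenform by `q`-stabilisation, in pure `q`-expansion terms.

* `restrictLevel M q k : CuspForm Γ₀(M) k →ₗ[ℂ] CuspForm Γ₀(M q) k` : the same function at the smaller
  group; `qCoeff_restrictLevel`;
* `stab g α β = α⁻¹ • (U_q (g) − β • g)` at level `M q`, `qCoeff_stab`;
* `exists_stabilisation` : for a prime `q ∤ M` and a normalized eigenform `g` of level `M` there is a
  normalized eigenform of level `M q` with the same coefficients at all `n` prime to `q`;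
* `exists_eigenform_of_dvd_squarefree` : the same from level `M` to any squarefree multiple `R`.
-/
import Mathlib
import Fermat.Agent.Helper8.QCoeff
import Fermat.Prelude.Def_FLTPrelim_Modularity
import Fermat.Prelude.Def_ModularForm_HeckeOperatorForms

set_option autoImplicit false
set_option linter.unusedSectionVars false

noncomputable section

namespace Fermat.Agent.S58lib.Stab

open UpperHalfPlane ModularFormClass CongruenceSubgroup Fermat.Agent.Helper8
open scoped MatrixGroups

/-! ### restriction of the level -/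

theorem Gamma0_mul_le (M q : ℕ) : Gamma0 (M * q) ≤ Gamma0 M := by
  intro γ hγ
  rw [Gamma0_mem] at hγ ⊢
  have h3 := (ZMod.intCast_zmod_eq_zero_iff_dvd (γ 1 0) (M * q)).mp hγ
  exact (ZMod.intCast_zmod_eq_zero_iff_dvd (γ 1 0) M).mpr
    (dvd_trans (Int.natCast_dvd_natCast.mpr (dvd_mul_right M q)) h3)

/-- a cusp form of level `M` as a cusp form of level `M q` -/
def restrictLevel (M q : ℕ) (k : ℤ) :
    CuspForm (Gamma0 M) k →ₗ[ℂ] CuspForm (Gamma0 (M * q)) k where
  toFun f :=
    { toFun := f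
      slash_action_eq' := fun γ hγ =>
        f.slash_action_eq' γ (Subgroup.map_mono (Gamma0_mul_le M q) hγ)
      holo' := f.holo'
      zero_at_cusps' := fun hc =>
        f.zero_at_cusps' (hc.mono (Subgroup.map_mono (Gamma0_mul_le M q))) }
  map_add' _ _ := DFunLike.coe_injective rfl
  map_smul' _ _ := DFunLike.coe_injective rfl

@[simp] theorem coe_restrictLevel (M q : ℕ) (k : ℤ) (f : CuspForm (Gamma0 M) k) :
    ⇑(restrictLevel M q k f) = ⇑f := rfl

theorem qCoeff_restrictLevel (M q : ℕ) (k : ℤ) (f : CuspForm (Gamma0 M) k) (n : ℕ) :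
    qCoeff ⇑(restrictLevel M q k f) n = qCoeff ⇑f n := rfl

/-! ### the stabilised form -/

section Stab

variable {M q : ℕ} [NeZero M] [NeZero q]

instance : NeZero (M * q) := ⟨Nat.mul_ne_zero (NeZero.ne M) (NeZero.ne q)⟩

/-- `α⁻¹ • (U_q g − β • g)` at level `M q` -/
def stab (g : CuspForm (Gamma0 M) 2) (α β : ℂ) : CuspForm (Gamma0 (M * q)) 2 :=
  α⁻¹ • (CuspForm.heckeULin 2 (dvd_mul_left q M) (restrictLevel M q 2 g) -
    β • restrictLevel M q 2 g)

theorem qCoeff_stab (hq : q.Prime) (g : CuspForm (Gamma0 M) 2) (α β : ℂ) (n : ℕ) :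
    qCoeff ⇑(stab (q := q) g α β) n = α⁻¹ * (qCoeff ⇑g (n * q) - β * qCoeff ⇑g n) := by
  rw [stab, qCoeff_smul, qCoeff_sub, qCoeff_smul, qCoeff_heckeULin hq,
    ModularForm.coeffHeckeU_apply, qCoeff_restrictLevel, qCoeff_restrictLevel]

end Stab

/-! ### the coefficient algebra -/

section Algebra

variable {M q : ℕ} {a : ℕ → ℂ} {α β : ℂ}

/-- `a(q^(r+1)) − β a(q^r) = α^(r+1)` -/
theorem pow_sub_eq (hαβ : α * β = q) (hα : α + β = a q) (h1 : a 1 = 1)
    (hrec : ∀ r : ℕ, a (q ^ (r + 2)) = a q * a (q ^ (r + 1)) - q * a (q ^ r)) (r : ℕ) :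
    a (q ^ (r + 1)) - β * a (q ^ r) = α ^ (r + 1) := by
  induction r with
  | zero =>
    rw [zero_add, pow_one, pow_zero, h1, pow_one, ← hα]
    ring
  | succ r ih =>
    rw [hrec r, pow_succ α (r + 1), ← ih, ← hα, ← hαβ]
    ring

end Algebra

/-! ### one prime -/

section OnePrime

variable {M q : ℕ} [NeZero M]

/-- **`q`-stabilisation** of a normalized eigenform of level `M`, `q ∤ M`. -/
theorem exists_stabilisation (hq : q.Prime) (hqM : ¬ q ∣ M) (g : CuspForm (Gamma0 M) 2)
    (hg : g.IsNormalizedEigenform) :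
    ∃ g' : CuspForm (Gamma0 (M * q)) 2, g'.IsNormalizedEigenform ∧
      ∀ n : ℕ, n.Coprime q → qCoeff ⇑g' n = qCoeff ⇑g n := by
  have : NeZero q := ⟨hq.ne_zero⟩
  set a : ℕ → ℂ := fun n => qCoeff ⇑g n with ha
  -- the roots
  obtain ⟨β, hβ⟩ : ∃ β : ℂ, β * β - a q * β + q = 0 := by
    obtain ⟨β, hβ⟩ := IsAlgClosed.exists_root
      (Polynomial.X ^ 2 - Polynomial.C (a q) * Polynomial.X + Polynomial.C (q : ℂ))
      (by
        have h2 : (Polynomial.X ^ 2 - Polynomial.C (a q) * Polynomial.X +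
            Polynomial.C (q : ℂ)).degree = 2 := by
          compute_degree!
        rw [h2]
        norm_num)
    refine ⟨β, ?_⟩
    simpa [Polynomial.IsRoot, sq] using hβ
  set α : ℂ := a q - β with hα
  have hαβ : α * β = q := by
    rw [hα]
    linear_combination (-1 : ℂ) * hβ
  have hsum : α + β = a q := by rw [hα]; ring
  have hα0 : α ≠ 0 := by
    intro h
    rw [h, zero_mul] at hαβ
    exact (Nat.cast_ne_zero.mpr hq.ne_zero) hαβ.symm
  have h1 : a 1 = 1 := hg.qCoeff_one
  have hrecq : ∀ r : ℕ, a (q ^ (r + 2)) = a q * a (q ^ (r + 1)) - q * a (q ^ r) :=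
    fun r => hg.qCoeff_prime_pow_of_not_dvd q r hq hqM
  -- the closed form of the new coefficients
  set b : ℕ → ℂ := fun n => qCoeff ⇑(stab (q := q) g α β) n with hb
  have hclosed : ∀ (r n' : ℕ), ¬ q ∣ n' → b (q ^ r * n') = α ^ r * a n' := by
    intro r n' hn'
    have hcop : ∀ j : ℕ, Nat.Coprime (q ^ j) n' := fun j =>
      Nat.Coprime.pow_left j ((Nat.Prime.coprime_iff_not_dvd hq).mpr hn')
    show qCoeff ⇑(stab (q := q) g α β) (q ^ r * n') = α ^ r * a n'
    rw [qCoeff_stab hq]
    have e1 : q ^ r * n' * q = q ^ (r + 1) * n' := by ring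
    rw [e1]
    have m1 : qCoeff ⇑g (q ^ (r + 1) * n') = a (q ^ (r + 1)) * a n' :=
      hg.qCoeff_mul_of_coprime _ _ (hcop (r + 1))
    have m2 : qCoeff ⇑g (q ^ r * n') = a (q ^ r) * a n' :=
      hg.qCoeff_mul_of_coprime _ _ (hcop r)
    rw [m1, m2]
    have key := pow_sub_eq (a := a) hαβ hsum h1 hrecq r
    have : a (q ^ (r + 1)) * a n' - β * (a (q ^ r) * a n') =
        (a (q ^ (r + 1)) - β * a (q ^ r)) * a n' := by ring
    rw [this, key, pow_succ]
    field_simp
  have hb_coprime : ∀ n : ℕ, ¬ q ∣ n → b n = a n := by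
    intro n hn
    have := hclosed 0 n hn
    simpa only [pow_zero, one_mul] using this
  have hb_qpow : ∀ r : ℕ, b (q ^ r) = α ^ r := by
    intro r
    have := hclosed r 1 (fun h => hq.one_lt.ne' (Nat.dvd_one.mp h))
    rwa [mul_one, h1, mul_one] at this
  have hdecomp : ∀ n : ℕ, n ≠ 0 → ∃ r n', ¬ q ∣ n' ∧ n = q ^ r * n' := by
    intro n hn
    obtain ⟨r, n', hn', h⟩ := Nat.exists_eq_pow_mul_and_not_dvd hn q hq.ne_one
    exact ⟨r, n', hn', h⟩
  refine ⟨stab (q := q) g α β, ⟨?_, ?_, ?_, ?_⟩, ?_⟩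
  · -- a₁ = 1
    have := hb_qpow 0
    rwa [pow_zero, pow_zero] at this
  · -- multiplicativity
    intro m n hmn
    show b (m * n) = b m * b n
    rcases Nat.eq_zero_or_pos m with rfl | hm
    · have hn1 : n = 1 := by simpa using hmn
      subst hn1
      have hb1 : b 1 = 1 := by
        have := hb_qpow 0
        rwa [pow_zero, pow_zero] at this
      rw [mul_one, hb1, mul_one]
    rcases Nat.eq_zero_or_pos n with rfl | hn
    · have hm1 : m = 1 := by simpa using hmn
      subst hm1
      have hb1 : b 1 = 1 := by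
        have := hb_qpow 0
        rwa [pow_zero, pow_zero] at this
      rw [one_mul, hb1, one_mul]
    obtain ⟨r, m', hm', rfl⟩ := hdecomp m hm.ne'
    obtain ⟨s, n', hn', rfl⟩ := hdecomp n hn.ne'
    have hcop' : Nat.Coprime m' n' :=
      Nat.Coprime.coprime_dvd_left (Dvd.intro_left _ rfl)
        (Nat.Coprime.coprime_dvd_right (Dvd.intro_left _ rfl) hmn)
    have hmn' : ¬ q ∣ m' * n' := fun h => (hq.dvd_mul.mp h).elim hm' hn'
    have e : q ^ r * m' * (q ^ s * n') = q ^ (r + s) * (m' * n') := by ring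
    rw [e, hclosed _ _ hmn', hclosed _ _ hm', hclosed _ _ hn', pow_add]
    have : a (m' * n') = a m' * a n' := hg.qCoeff_mul_of_coprime _ _ hcop'
    rw [this]
    ring
  · -- good primes
    intro p r hp hpMq
    have hpq : p ≠ q := fun h => hpMq (h ▸ dvd_mul_left _ _)
    have hpM : ¬ p ∣ M := fun h => hpMq (dvd_mul_of_dvd_left h q)
    have hnd : ∀ j : ℕ, ¬ q ∣ p ^ j := fun j h =>
      hpq ((Nat.prime_dvd_prime_iff_eq hq hp).mp (hq.dvd_of_dvd_pow h)).symm
    show b (p ^ (r + 2)) = b p * b (p ^ (r + 1)) - p * b (p ^ r)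
    have hp1 : b p = a p := by
      have := hb_coprime (p ^ 1) (hnd 1)
      rwa [pow_one] at this
    rw [hb_coprime _ (hnd _), hb_coprime _ (hnd _), hb_coprime _ (hnd _), hp1]
    exact hg.qCoeff_prime_pow_of_not_dvd p r hp hpM
  · -- bad primes
    intro p r hp hpMq
    show b (p ^ (r + 2)) = b p * b (p ^ (r + 1))
    by_cases hpq : p = q
    · subst hpq
      have hp1 : b p = α := by
        have := hb_qpow 1
        rwa [pow_one, pow_one] at this
      rw [hb_qpow, hb_qpow, hp1]
      ring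
    · have hpM : p ∣ M := by
        rcases hp.dvd_mul.mp hpMq with h | h
        · exact h
        · exact absurd ((Nat.prime_dvd_prime_iff_eq hp hq).mp h) hpq
      have hnd : ∀ j : ℕ, ¬ q ∣ p ^ j := fun j h =>
        hpq ((Nat.prime_dvd_prime_iff_eq hq hp).mp (hq.dvd_of_dvd_pow h)).symm
      have hp1 : b p = a p := by
        have := hb_coprime (p ^ 1) (hnd 1)
        rwa [pow_one] at this
      rw [hb_coprime _ (hnd _), hb_coprime _ (hnd _), hp1]
      exact hg.qCoeff_prime_pow_of_dvd p r hp hpM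
  · intro n hn
    exact hb_coprime n ((Nat.Prime.coprime_iff_not_dvd hq).mp hn.symm)

end OnePrime

/-! ### several primes -/

section Several

/-- the eigenform property only depends on the coefficients and on the set of primes dividing the
level -/
theorem isNormalizedEigenform_of_qCoeff_eq {M M' : ℕ} (g : CuspForm (Gamma0 M) 2)
    (g' : CuspForm (Gamma0 M') 2) (hg : g.IsNormalizedEigenform)
    (h : ∀ n : ℕ, qCoeff ⇑g' n = qCoeff ⇑g n)
    (hdvd : ∀ p : ℕ, p.Prime → (p ∣ M' ↔ p ∣ M)) : g'.IsNormalizedEigenform := by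
  refine ⟨?_, ?_, ?_, ?_⟩
  · rw [h]; exact hg.qCoeff_one
  · intro m n hmn
    rw [h, h, h]
    exact hg.qCoeff_mul_of_coprime m n hmn
  · intro p r hp hpM
    rw [h, h, h, h]
    exact hg.qCoeff_prime_pow_of_not_dvd p r hp (fun hh => hpM ((hdvd p hp).mpr hh))
  · intro p r hp hpM
    rw [h, h, h]
    exact hg.qCoeff_prime_pow_of_dvd p r hp ((hdvd p hp).mp hpM)

variable {M : ℕ} [NeZero M]

/-- from level `M` to level `R = M * s`, `s` squarefree and prime to `M` -/
theorem exists_eigenform_of_level_eq (g : CuspForm (Gamma0 M) 2) (hg : g.IsNormalizedEigenform) :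
    ∀ s : ℕ, Squarefree s → M.Coprime s → ∀ R : ℕ, R = M * s →
      ∃ g' : CuspForm (Gamma0 R) 2, g'.IsNormalizedEigenform ∧
        ∀ n : ℕ, n.Coprime s → qCoeff ⇑g' n = qCoeff ⇑g n := by
  intro s
  induction s using Nat.strong_induction_on with
  | _ s ih =>
    intro hs hMs R hR
    by_cases h1 : s = 1
    · subst h1
      subst hR
      refine ⟨restrictLevel M 1 2 g, ?_, fun n _ => rfl⟩
      exact isNormalizedEigenform_of_qCoeff_eq g _ hg (fun n => rfl)
        (fun p _ => by rw [mul_one])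
    · have hs0 : s ≠ 0 := hs.ne_zero
      have hq : (s.minFac).Prime := Nat.minFac_prime h1
      set q := s.minFac with hqdef
      obtain ⟨s', hs'⟩ : q ∣ s := Nat.minFac_dvd s
      have hs'0 : s' ≠ 0 := by
        rintro rfl
        exact hs0 (by rw [hs', mul_zero])
      have hlt : s' < s := by
        rw [hs']
        exact lt_mul_of_one_lt_left (Nat.pos_of_ne_zero hs'0) hq.one_lt
      have hsq' : Squarefree s' := hs.squarefree_of_dvd (Dvd.intro_left q hs'.symm)
      have hMs' : M.Coprime s' := Nat.Coprime.coprime_dvd_right (Dvd.intro_left q hs'.symm) hMs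
      have hqs' : ¬ q ∣ s' := by
        intro h
        have h2 : q * q ∣ s := by
          rw [hs']
          exact Nat.mul_dvd_mul_left q h
        exact hq.one_lt.ne' (Nat.isUnit_iff.mp (hs q h2))
      have hqM : ¬ q ∣ M := by
        intro h
        have := Nat.Coprime.eq_one_of_dvd
          (Nat.Coprime.coprime_dvd_right (Dvd.intro _ hs'.symm) hMs).symm h
        exact hq.one_lt.ne' this
      obtain ⟨g₁, hg₁, hc₁⟩ := ih s' hlt hsq' hMs' (M * s') rfl
      have hqR' : ¬ q ∣ M * s' := fun h => (hq.dvd_mul.mp h).elim hqM hqs'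
      have : NeZero (M * s') := ⟨Nat.mul_ne_zero (NeZero.ne M) hs'0⟩
      obtain ⟨g₂, hg₂, hc₂⟩ := exists_stabilisation hq hqR' g₁ hg₁
      have hRR : R = M * s' * q := by
        rw [hR, hs']
        ring
      subst hRR
      refine ⟨g₂, hg₂, fun n hn => ?_⟩
      have hnq : n.Coprime q := Nat.Coprime.coprime_dvd_right (Dvd.intro _ hs'.symm) hn
      have hns' : n.Coprime s' := Nat.Coprime.coprime_dvd_right (Dvd.intro_left q hs'.symm) hn
      rw [hc₂ n hnq, hc₁ n hns']

/-- **brick (G)**: a normalized eigenform of level `M` gives a normalized eigenform of any squarefree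
level `R` divisible by `M`, with the same coefficients at all `n` prime to `R`. -/
theorem exists_eigenform_of_dvd_squarefree {R : ℕ} (hMR : M ∣ R) (hR : Squarefree R)
    (g : CuspForm (Gamma0 M) 2) (hg : g.IsNormalizedEigenform) :
    ∃ g' : CuspForm (Gamma0 R) 2, g'.IsNormalizedEigenform ∧
      ∀ n : ℕ, n.Coprime R → qCoeff ⇑g' n = qCoeff ⇑g n := by
  obtain ⟨s, rfl⟩ := hMR
  obtain ⟨hcop, -, hs⟩ := Nat.squarefree_mul_iff.mp hR
  obtain ⟨g', hg', hc⟩ := exists_eigenform_of_level_eq g hg s hs hcop (M * s) rfl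
  exact ⟨g', hg', fun n hn => hc n (Nat.Coprime.coprime_dvd_right (Dvd.intro_left M rfl) hn)⟩

/-- the same with the coefficients at the primes not dividing `R` -/
theorem exists_eigenform_of_dvd_squarefree' {R : ℕ} (hMR : M ∣ R) (hR : Squarefree R)
    (g : CuspForm (Gamma0 M) 2) (hg : g.IsNormalizedEigenform) :
    ∃ g' : CuspForm (Gamma0 R) 2, g'.IsNormalizedEigenform ∧
      ∀ ℓ : ℕ, ℓ.Prime → ¬ ℓ ∣ R → qCoeff ⇑g' ℓ = qCoeff ⇑g ℓ := by
  obtain ⟨g', hg', hc⟩ := exists_eigenform_of_dvd_squarefree hMR hR g hg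
  exact ⟨g', hg', fun ℓ hℓ hℓR => hc ℓ ((Nat.Prime.coprime_iff_not_dvd hℓ).mpr hℓR)⟩

end Several

end Fermat.Agent.S58lib.Stab
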