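/-
S58lib / Stab / MinLevel  (helper7)  --  brick (A) of S58: descent to a "newform" in the prelude's sense

With the prelude's definition `IsNewform g := g eigenform ∧ no proper divisor level carries the good
eigensystem of g`, every normalized eigenform `f` of level `N ≠ 0` has a companion newform:
a divisor `M ∣ N` and a newform `g` of level `M` with `a_ℓ(g) = a_ℓ(f)` for all primes `ℓ ∤ N`
(take `M` minimal among the divisors of `N` carrying the eigensystem of `f` off `N`).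
-/
import Mathlib
import Fermat.Prelude.Def_CuspForm_Newforms

set_option autoImplicit false
set_option linter.unusedSectionVars false

noncomputable section

namespace Fermat.Agent.S58lib.Stab

open UpperHalfPlane ModularFormClass CongruenceSubgroup CuspForm

/-- **brick (A)**: the newform (prelude sense) of minimal level carrying the good eigensystem -/
theorem exists_isNewform_of_isNormalizedEigenform {N : ℕ} (hN : N ≠ 0)
    (f : CuspForm (Gamma0 N) 2) (hf : f.IsNormalizedEigenform) :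
    ∃ (M : ℕ) (_ : M ∣ N) (g : CuspForm (Gamma0 M) 2), g.IsNewform ∧
      ∀ ℓ : ℕ, ℓ.Prime → ¬ ℓ ∣ N → qCoeff ⇑g ℓ = qCoeff ⇑f ℓ := by
  classical
  have hex : ∃ M : ℕ, M ∣ N ∧ GoodEigensystemOccursAt f M :=
    ⟨N, dvd_rfl, GoodEigensystemOccursAt.refl hf⟩
  obtain ⟨M, ⟨hMN, g, hg, hgf⟩, hmin⟩ : ∃ M : ℕ, (M ∣ N ∧ GoodEigensystemOccursAt f M) ∧
      ∀ m < M, ¬ (m ∣ N ∧ GoodEigensystemOccursAt f m) :=
    ⟨Nat.find hex, Nat.find_spec hex, fun m hm => Nat.find_min hex hm⟩
  have hM0 : M ≠ 0 := fun h => hN (by rw [h] at hMN; exact zero_dvd_iff.mp hMN)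
  refine ⟨M, hMN, g, ⟨hg, ?_⟩, hgf⟩
  intro M'' hM'' hne ⟨h, hh, hhg⟩
  have hlt : M'' < M :=
    lt_of_le_of_ne (Nat.le_of_dvd (Nat.pos_of_ne_zero hM0) hM'') hne
  refine hmin M'' hlt ⟨hM''.trans hMN, h, hh, fun ℓ hℓ hℓN => ?_⟩
  rw [hhg ℓ hℓ (fun hd => hℓN (hd.trans hMN)), hgf ℓ hℓ hℓN]

end Fermat.Agent.S58lib.Stab
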