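/-
S58lib / Stab / Conductor  (helper7)  --  brick (G) of S58, packaged for the conclusion of S58

* `isModularModelOfLevel_conductorLevel_of_dvd` : a normalized eigenform `g` of a level `M` dividing
  `rad Δ_W`, with `a_ℓ(g) = a_ℓ(W)` at all good primes `ℓ` of `W`, makes `W` modular of level
  `W.conductorLevel = rad |Δ_W|`;
* `isModularModelOfLevel_of_dvd_squarefree` : the same for any squarefree level `R` divisible by `M`
  (coefficients needed only at the good primes not dividing `R`).
-/
import Mathlib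
import Fermat.Agent.S58lib.Stab.Basic
import Fermat.Prelude.Def_WeierstrassCurve_ConductorLevel

set_option autoImplicit false
set_option linter.unusedSectionVars false

noncomputable section

namespace Fermat.Agent.S58lib.Stab

open UpperHalfPlane ModularFormClass CongruenceSubgroup WeierstrassCurve

/-- raising the level of a modular model to a squarefree multiple -/
theorem isModularModelOfLevel_of_dvd_squarefree (W : WeierstrassCurve ℤ) {M R : ℕ} [NeZero M]
    (hMR : M ∣ R) (hR : Squarefree R) (g : CuspForm (Gamma0 M) 2) (hg : g.IsNormalizedEigenform)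
    (hcoef : ∀ ℓ : ℕ, ℓ.Prime → W.IsGoodPrimeFor ℓ → ¬ ℓ ∣ R →
      qCoeff ⇑g ℓ = (W.apOfModel ℓ : ℂ)) :
    W.IsModularModelOfLevel R := by
  obtain ⟨g', hg', hc⟩ := exists_eigenform_of_dvd_squarefree' hMR hR g hg
  exact ⟨g', hg', fun ℓ hℓ hgood hℓR => by rw [hc ℓ hℓ hℓR, hcoef ℓ hℓ hgood hℓR]⟩

/-- **the last step of S58**: from a level dividing `rad Δ` to `W.conductorLevel` -/
theorem isModularModelOfLevel_conductorLevel_of_dvd (W : WeierstrassCurve ℤ) {M : ℕ} [NeZero M]
    (hM : M ∣ W.conductorLevel) (g : CuspForm (Gamma0 M) 2) (hg : g.IsNormalizedEigenform)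
    (hcoef : ∀ ℓ : ℕ, ℓ.Prime → W.IsGoodPrimeFor ℓ → qCoeff ⇑g ℓ = (W.apOfModel ℓ : ℂ)) :
    W.IsModularModelOfLevel W.conductorLevel :=
  isModularModelOfLevel_of_dvd_squarefree W hM W.squarefree_conductorLevel g hg
    (fun ℓ hℓ hgood _ => hcoef ℓ hℓ hgood)

end Fermat.Agent.S58lib.Stab
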